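import Fermat.Agent.CAR.FQ2E.Gal

/-!
# CAR / FQ2E / Idx : the middle expansions indexed by `c : (ZMod q)ˣ` (decision (D1) of [FQ2])

`eMidC ζ c := eMid (ζ ^ c)`, for a fixed primitive `q`-th root of unity `ζ`.
-/

set_option autoImplicit false

open ModularCurve AlgebraicCurve

noncomputable section

namespace Fermat.Agent.CAR.FQ2E

open Fermat.Agent.S24 Fermat.Agent.S28 Fermat.Agent.GR.HeckeField Fermat.Agent.TOR.GB
  Fermat.Agent.GAL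

variable (M' q : ℕ) [NeZero M'] [NeZero q]

/-- `ζ ^ c`, `c : (ZMod q)ˣ`. -/
def zpw (ζ : Qbˣ) (c : (ZMod q)ˣ) : Qbˣ := ζ ^ (c : ZMod q).val

/-- the expansion at the middle cusp `c`. -/
def eMidC (ζ : Qbˣ) (c : (ZMod q)ˣ) : FN (M' * q * q) →+* LaurentSeries Qb :=
  eMid M' q (zpw q ζ c)

variable {M' q}

theorem zpw_pow {ζ : Qbˣ} (hζ : IsPrimitiveRoot ζ q) (c : (ZMod q)ˣ) : zpw q ζ c ^ q = 1 := by
  unfold zpw
  rw [← pow_mul, mul_comm, pow_mul, hζ.pow_eq_one, one_pow]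

theorem Idx_val_pos (hq : q.Prime) (c : (ZMod q)ˣ) : 0 < (c : ZMod q).val := by
  have : Fact q.Prime := ⟨hq⟩
  exact Nat.pos_of_ne_zero fun h0 => c.ne_zero ((ZMod.val_eq_zero _).1 h0)

/-- `ζ ^ k` only depends on `k` in `ZMod q`. -/
theorem Idx_pow_eq_zpw {ζ : Qbˣ} (hζ : IsPrimitiveRoot ζ q) (k : ℕ) (c : (ZMod q)ˣ)
    (h : (k : ZMod q) = (c : ZMod q)) : ζ ^ k = zpw q ζ c := by
  unfold zpw
  rw [← h, ZMod.val_natCast]
  exact pow_eq_pow_mod k hζ.pow_eq_one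

theorem zpw_mul {ζ : Qbˣ} (hζ : IsPrimitiveRoot ζ q) (a c : (ZMod q)ˣ) :
    zpw q ζ (a * c) = zpw q ζ a ^ (c : ZMod q).val := by
  rw [← Idx_pow_eq_zpw hζ ((a : ZMod q).val * (c : ZMod q).val) (a * c) (by simp)]
  unfold zpw
  rw [pow_mul]

theorem zpw_neg {ζ : Qbˣ} (hζ : IsPrimitiveRoot ζ q) (c : (ZMod q)ˣ) :
    zpw q ζ (-c) = (zpw q ζ c)⁻¹ := by
  apply eq_inv_of_mul_eq_one_left
  unfold zpw
  rw [← pow_add, hζ.pow_eq_one_iff_dvd, ← ZMod.natCast_eq_zero_iff]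
  simp

theorem zpw_ne_one (hq : q.Prime) {ζ : Qbˣ} (hζ : IsPrimitiveRoot ζ q) (c : (ZMod q)ˣ) :
    zpw q ζ c ≠ 1 := by
  intro h
  have h1 := (hζ.pow_eq_one_iff_dvd _).1 h
  have h2 := Nat.eq_zero_of_dvd_of_lt h1 (ZMod.val_lt _)
  exact (Idx_val_pos hq c).ne' h2

theorem zpw_injective (hq : q.Prime) {ζ : Qbˣ} (hζ : IsPrimitiveRoot ζ q) :
    Function.Injective (zpw q ζ) := by
  intro c c' h
  exact Units.ext (ZMod.val_injective q (hζ.pow_inj (ZMod.val_lt _) (ZMod.val_lt _) h))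

/-- the unit attached to `0 < k < q`. -/
theorem Idx_exists_unit (hq : q.Prime) {k : ℕ} (hk0 : 0 < k) (hk : k < q) :
    ∃ c : (ZMod q)ˣ, (c : ZMod q).val = k := by
  have : Fact q.Prime := ⟨hq⟩
  have hval : ((k : ℕ) : ZMod q).val = k := ZMod.val_natCast_of_lt hk
  have hne : ((k : ℕ) : ZMod q) ≠ 0 := by
    intro h0
    rw [h0, ZMod.val_zero] at hval
    omega
  exact ⟨Units.mk0 _ hne, hval⟩

/-- every `q`-th root of unity `≠ 1` is a `zpw`. -/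
theorem exists_zpw_eq (hq : q.Prime) {ζ : Qbˣ} (hζ : IsPrimitiveRoot ζ q) {ξ : Qbˣ}
    (hξ : ξ ^ q = 1) (hξ1 : ξ ≠ 1) : ∃ c : (ZMod q)ˣ, zpw q ζ c = ξ := by
  have hξ' : (ξ : Qb) ^ q = 1 := by
    rw [← Units.val_pow_eq_pow_val, hξ, Units.val_one]
  obtain ⟨i, hi, hiξ⟩ := (IsPrimitiveRoot.coe_units_iff.2 hζ).eq_pow_of_pow_eq_one hξ'
  obtain rfl : ζ ^ i = ξ := Units.ext (by rw [Units.val_pow_eq_pow_val, hiξ])
  have hi0 : 0 < i := by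
    rcases Nat.eq_zero_or_pos i with rfl | h
    · exact absurd (pow_zero ζ) hξ1
    · exact h
  obtain ⟨c, hc⟩ := Idx_exists_unit hq hi0 hi
  exact ⟨c, by unfold zpw; rw [hc]⟩

/-- re-indexing of products. -/
theorem prod_zpw (hq : q.Prime) {ζ : Qbˣ} (hζ : IsPrimitiveRoot ζ q) {A : Type*} [CommMonoid A]
    (f : Qbˣ → A) : letI : Fact q.Prime := ⟨hq⟩
    ∏ c : (ZMod q)ˣ, f (zpw q ζ c) = ∏ k ∈ Finset.Ico 1 q, f (ζ ^ k) := by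
  refine Finset.prod_bij (fun c _ => (c : ZMod q).val) ?_ ?_ ?_ ?_
  · intro c _
    exact Finset.mem_Ico.2 ⟨Idx_val_pos hq c, ZMod.val_lt _⟩
  · intro c _ c' _ h
    exact Units.ext (ZMod.val_injective q h)
  · intro k hk
    obtain ⟨h1, h2⟩ := Finset.mem_Ico.1 hk
    obtain ⟨c, hc⟩ := Idx_exists_unit hq h1 h2
    exact ⟨c, Finset.mem_univ _, hc⟩
  · intro c _
    rfl

theorem eMidC_algebraMap (ζ : Qbˣ) (c : (ZMod q)ˣ) (a : Qb) :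
    eMidC M' q ζ c (algebraMap Qb (FN (M' * q * q)) a) = algebraMap Qb (LaurentSeries Qb) a :=
  eMid_algebraMap _ a

theorem eMidC_alp (ζ : Qbˣ) (c : (ZMod q)ˣ) (y : FN (M' * q)) :
    eMidC M' q ζ c (alp (M' * q) q y) = (y : LaurentSeries Qb) :=
  eMid_alp _ y

theorem eMidC_bet (hq : q.Prime) (hqM : ¬ q ∣ M') {ζ : Qbˣ} (hζ : IsPrimitiveRoot ζ q)
    (c : (ZMod q)ˣ) (y : FN (M' * q)) :
    eMidC M' q ζ c (bet (M' * q) q y)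
      = twist (zpw q ζ c) ((wq M' q y : FN (M' * q)) : LaurentSeries Qb) :=
  eMid_bet hq hqM (zpw_pow hζ c) (zpw_ne_one hq hζ c) y

/-- **(N1, cusp ∞)**, indexed by `(ZMod q)ˣ`. -/
theorem coe_N1_idx (hq : q.Prime) (hqM : ¬ q ∣ M') {ζ : Qbˣ} (hζ : IsPrimitiveRoot ζ q)
    (z : FN (M' * q * q)) : letI : Fact q.Prime := ⟨hq⟩
    ((N1 M' q z : FN (M' * q)) : LaurentSeries Qb)
      = (z : LaurentSeries Qb) * ∏ c : (ZMod q)ˣ, eMidC M' q ζ c z := by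
  rw [coe_N1' hq hqM hζ z]
  congr 1
  exact (prod_zpw hq hζ (fun ξ => eMid M' q ξ z)).symm

/-- **(N2, cusp 0)**, indexed by `(ZMod q)ˣ`; the factors are twists of the `eMidC c' z`. -/
theorem coe_wq_N2_idx (hq : q.Prime) (hqM : ¬ q ∣ M') {ζ : Qbˣ} (hζ : IsPrimitiveRoot ζ q)
    (z : FN (M' * q * q)) : letI : Fact q.Prime := ⟨hq⟩
    ((wq M' q (N2 M' q z) : FN (M' * q)) : LaurentSeries Qb)
      = ((wqq M' q z : FN (M' * q * q)) : LaurentSeries Qb)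
        * ∏ c : (ZMod q)ˣ, twist (zpw q ζ c)⁻¹ (eMidC M' q ζ c z) := by
  rw [coe_wq_N2 hq hqM hζ z]
  congr 1
  rw [← prod_zpw hq hζ (fun ξ => eMid M' q ξ (wqq M' q z))]
  refine Fintype.prod_equiv (Equiv.neg _) _ _ fun c => ?_
  rw [eMid_wqq hq hqM (zpw_pow hζ c) (zpw_ne_one hq hζ c), Equiv.neg_apply, eMidC, zpw_neg hζ,
    inv_inv]

/-- Galois: `σ ζ = ζ ^ a` ⇒ `σ (eMidC c z) = eMidC (a c) (σ z)`. -/
theorem galS_eMidC (hq : q.Prime) (hqM : ¬ q ∣ M') {ζ : Qbˣ} (hζ : IsPrimitiveRoot ζ q) (σ : GQ)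
    (a : (ZMod q)ˣ) (ha : Units.map ((σ : Qb →+* Qb) : Qb →* Qb) ζ = zpw q ζ a) (c : (ZMod q)ˣ)
    (z : FN (M' * q * q)) :
    galS σ (eMidC M' q ζ c z) = eMidC M' q ζ (a * c) (galF (M' * q * q) σ z) := by
  unfold eMidC
  rw [galS_eMid hq hqM σ (zpw_pow hζ c), zpw_mul hζ, ← ha, ← map_pow]
  rfl

end Fermat.Agent.CAR.FQ2E
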