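import Fermat.Agent.CAR.FQ2E.Wqq
import Fermat.Agent.TOR.GB.Norm

/-!
# CAR / FQ2E / Deg : definitions of `N1`, `N2`; `[F : π₁ F1] = [F : π₂ F1] = q`
-/

set_option autoImplicit false

open ModularCurve AlgebraicCurve

noncomputable section

namespace Fermat.Agent.CAR.FQ2E

open Fermat.Agent.S24 Fermat.Agent.S28 Fermat.Agent.GR.HeckeField Fermat.Agent.TOR.GB
  Fermat.Agent.GAL

variable (M' q : ℕ) [NeZero M'] [NeZero q]

/-- `F` as an `F1`-algebra along `π₂`. -/
@[reducible] def algBet : Algebra (FN (M' * q)) (FN (M' * q * q)) :=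
  (bet (M' * q) q).toRingHom.toAlgebra

/-- the norm along `π₁`. -/
def N1 : FN (M' * q * q) →* FN (M' * q) :=
  @Algebra.norm (FN (M' * q)) (FN (M' * q * q)) _ _ (algFN (M' * q) q)

/-- the norm along `π₂`. -/
def N2 : FN (M' * q * q) →* FN (M' * q) :=
  @Algebra.norm (FN (M' * q)) (FN (M' * q * q)) _ _ (algBet M' q)

theorem dedekindPsi_mul_sq (hq : q.Prime) (hqM : ¬ q ∣ M') :
    dedekindPsi (M' * q * q) = dedekindPsi (M' * q) * q := by
  have hcop : Nat.Coprime M' q := ((Nat.Prime.coprime_iff_not_dvd hq).mpr hqM).symm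
  have hcop2 : Nat.Coprime M' (q ^ 2) := Nat.Coprime.pow_right 2 hcop
  have h1 : dedekindPsi q = q + 1 := by
    have := Fermat.Agent.Lib.Gamma0Cosets.dedekindPsi_prime_pow hq 0
    simpa using this
  have h2 : dedekindPsi (q ^ 2) = q ^ 2 + q := by
    have := Fermat.Agent.Lib.Gamma0Cosets.dedekindPsi_prime_pow hq 1
    simpa using this
  have e : M' * q * q = M' * q ^ 2 := by ring
  rw [e, Fermat.Agent.Lib.Gamma0Cosets.dedekindPsi_mul hcop2,
    Fermat.Agent.Lib.Gamma0Cosets.dedekindPsi_mul hcop, h1, h2]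
  ring

/-- `[F : π₁ F1] = q`. -/
theorem finrank_alp (hq : q.Prime) (hqM : ¬ q ∣ M') :
    @Module.finrank (FN (M' * q)) (FN (M' * q * q)) _ _ (algFN (M' * q) q).toModule = q := by
  let _ : Algebra (FN (M' * q)) (FN (M' * q * q)) := algFN (M' * q) q
  have h1 := finrank_tower_adjoin (K := Kb) (F := FN (M' * q)) (F' := FN (M' * q * q)) (JJ (M' * q))
  have h2 : algebraMap (FN (M' * q)) (FN (M' * q * q)) (JJ (M' * q)) = JJ (M' * q * q) :=
    alp_Jd (M' * q) q 1 (one_dvd (M' * q))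
  rw [h2, finrank_FN, finrank_FN, Fermat.Agent.Lib.Gamma0Cosets.card_quotient,
    Fermat.Agent.Lib.Gamma0Cosets.card_quotient, dedekindPsi_mul_sq M' q hq hqM] at h1
  have h4 : 0 < dedekindPsi (M' * q) := by
    rw [← Fermat.Agent.Lib.Gamma0Cosets.card_quotient (M' * q)]
    exact Nat.card_pos
  exact Nat.eq_of_mul_eq_mul_left h4 h1

/-- `[F : π₂ F1] = q`. -/
theorem finrank_bet (hq : q.Prime) (hqM : ¬ q ∣ M') :
    @Module.finrank (FN (M' * q)) (FN (M' * q * q)) _ _ (algBet M' q).toModule = q := by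
  refine Eq.trans (@Algebra.finrank_eq_of_equiv_equiv (FN (M' * q)) (FN (M' * q * q)) _ _
    (algFN (M' * q) q) (FN (M' * q)) (FN (M' * q * q)) _ _ (algBet M' q)
    (wq M' q).toRingEquiv (wqq M' q).toRingEquiv ?_).symm (finrank_alp M' q hq hqM)
  refine RingHom.ext fun y => ?_
  exact (wqq_alp hq hqM y).symm

end Fermat.Agent.CAR.FQ2E
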