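import Fermat.Agent.TOR.GB.W

/-!
# CAR / FQ2E / Emb : `Q`-expansions of the conjugates `γ • j(dτ)`; two matrix identities

* `emb_Jd_of_affH` : if `j(d γ⁻¹τ) = j((aτ+b)/e)` then the expansion of `γ • j(d·)` is
  `j(ξ Q^k)`, `ξ = exp(2πi b/e)`, `k e = N a`.
* `jD_gamL_smul`   : `j(q² d · τ/(M'q i τ + 1)) = j(dτ + dc/q)` when `c M' i ≡ 1 (q)`   (middle cusps).
* `jD_gam0_smul'`  : `j(ℓ₁ d · γ₀τ) = j(dτ/ℓ₁)` for `γ₀ = [[u,v],[M,ℓ₁ℓ₂]]`        (Atkin--Lehner).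
-/

set_option autoImplicit false

open UpperHalfPlane ModularForm Function ModularCurve
open scoped Manifold MatrixGroups

noncomputable section

namespace Fermat.Agent.CAR.FQ2E

open Fermat.Agent.S24 Fermat.Agent.S28 Fermat.Agent.GR.HeckeField

/-- the `Q`-expansion of a conjugate of `j(dτ)`. -/
theorem emb_Jd_of_affH (M ℓ : ℕ) [NeZero M] [NeZero ℓ] (γ : SL(2, ℤ)) (d : ℕ) [NeZero d]
    (hd : d ∣ M * ℓ) (a e : ℕ) (b : ℤ) (ha : 0 < a) (he : 0 < e) (k : ℕ) [NeZero k]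
    (hk : k * e = M * ℓ * a)
    (h : ∀ τ : ℍ, jD d (γ⁻¹ • τ) = jFun (affH a e b ha he τ)) :
    emb M ℓ γ (Jd (M * ℓ) d hd) = qExpand ℂ k (twist (rootU e b) (jqModC ℂ)) := by
  rw [emb_apply, Psi_Jd, smul_algebraMap_LL, LamL_algebraMap]
  have hfun : (γ • (⟨jD d, jD_mem_MerMod hd⟩ : MerMod (M * ℓ))).1
      = fun τ => jFun (affH a e b ha he τ) := funext h
  have hmem : (fun τ => jFun (affH a e b ha he τ)) ∈ MerInf (M * ℓ) := by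
    rw [← hfun]
    exact MerMod_le_MerInf _ (γ • (⟨jD d, jD_mem_MerMod hd⟩ : MerMod (M * ℓ))).2
  rw [← Lam_jFun_affH a e b ha he (N := M * ℓ) (k := k) hk hmem]
  show Lam (M * ℓ) _ = _
  exact congrArg _ (Subtype.ext hfun)

/-- constants. -/
theorem emb_algebraMap (M ℓ : ℕ) [NeZero M] [NeZero ℓ] (γ : SL(2, ℤ)) (a : Kb) :
    emb M ℓ γ (algebraMap Kb (FN (M * ℓ)) a) = HahnSeries.single 0 (iota a) := by
  rw [emb_apply, AlgHom.commutes, ← sig_apply, AlgHom.commutes, ← kap_algebraMap, kap_apply]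
  have h1 : ((algebraMap Kb (FN (M * ℓ)) a : FN (M * ℓ)) : LaurentSeries Kb) =
      HahnSeries.single 0 a := algebraMap_laurentSeries_eq_single Kb a
  rw [h1, coeffMap_single, qExpand_single, mul_zero]

/-- `[[1,0],[-n,1]]`, whose inverse is `τ ↦ τ/(nτ+1)`. -/
def gamL (n : ℤ) : SL(2, ℤ) := (mkSL 1 0 n 1 (by ring))⁻¹

theorem gamL_mem (M : ℕ) (n : ℤ) (h : (M : ℤ) ∣ n) : gamL n ∈ CongruenceSubgroup.Gamma0 M := by
  apply inv_mem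
  rw [CongruenceSubgroup.Gamma0_mem]
  simp only [mkSL]
  simpa using (ZMod.intCast_zmod_eq_zero_iff_dvd n M).mpr h

theorem Emb_denom_ne (r s : ℤ) (hs : s ≠ 0) (τ : ℍ) : (r : ℂ) * τ + s ≠ 0 := by
  have := UpperHalfPlane.linear_ne_zero (cd := ![(r : ℝ), (s : ℝ)]) τ (by
    intro h0
    have := congrFun h0 1
    simp at this
    exact hs this)
  simpa using this

/-- middle cusps: `q²d · τ/(d e q i τ + 1) = δ ((q d τ + d c)/q)`. -/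
theorem jD_gamL_smul (d e q : ℕ) [NeZero d] [NeZero q] (c i r : ℤ)
    (h : c * ((d * e : ℕ) : ℤ) * i - q * r = 1) (τ : ℍ) :
    jD (q * (q * d)) ((gamL (((d * e * q : ℕ) : ℤ) * i))⁻¹ • τ) =
      jFun (affH (q * d) q (d * c) (Nat.pos_of_ne_zero (NeZero.ne _))
        (Nat.pos_of_ne_zero (NeZero.ne q)) τ) := by
  have hδ : (q : ℤ) * (-r) - (-(d * c)) * (e * i) = 1 := by
    push_cast at h
    linarith
  have key : scaleH (q * (q * d)) ((gamL (((d * e * q : ℕ) : ℤ) * i))⁻¹ • τ) =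
      mkSL (q : ℤ) (-(d * c)) (e * i) (-r) hδ • affH (q * d) q (d * c)
        (Nat.pos_of_ne_zero (NeZero.ne _)) (Nat.pos_of_ne_zero (NeZero.ne q)) τ := by
    apply UpperHalfPlane.ext
    rw [coe_scaleH, gamL, inv_inv, coe_mkSL_smul, coe_mkSL_smul, coe_affH]
    have hq : (q : ℂ) ≠ 0 := by exact_mod_cast NeZero.ne q
    have h1 := Emb_denom_ne (((d * e * q : ℕ) : ℤ) * i) 1 one_ne_zero τ
    have hC : (c : ℂ) * ((d : ℂ) * e) * i - q * r = 1 := by exact_mod_cast h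
    have h2 : ((e * i : ℤ) : ℂ) * ((((q * d : ℕ) : ℂ) * τ + ((d * c : ℤ) : ℂ)) / q) + ((-r : ℤ) : ℂ)
        = ((((d * e * q : ℕ) : ℤ) * i : ℤ) * (τ : ℂ) + (1 : ℤ)) / q := by
      push_cast
      field_simp
      linear_combination hC
    rw [h2]
    push_cast at h1 ⊢
    field_simp
    ring
  rw [jD, key, jFun_smul]

/-- Atkin--Lehner: `ℓ₁ d · γ₀ τ = δ (d τ/ℓ₁)`, `γ₀ = [[u,v],[d e, ℓ₁ ℓ₂]]`. -/
theorem jD_gam0_smul' (d e ℓ₁ ℓ₂ : ℕ) [NeZero d] [NeZero ℓ₁] (u v : ℤ)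
    (h : u * ((ℓ₁ * ℓ₂ : ℕ) : ℤ) - v * ((d * e : ℕ) : ℤ) = 1) (τ : ℍ) :
    jD (ℓ₁ * d) (gam0 (d * e) (ℓ₁ * ℓ₂) u v h • τ) =
      jFun (affH d ℓ₁ 0 (Nat.pos_of_ne_zero (NeZero.ne d)) (Nat.pos_of_ne_zero (NeZero.ne ℓ₁)) τ) := by
  have hδ : ((ℓ₁ : ℤ) * u) * ℓ₂ - ((d : ℤ) * v) * e = 1 := by
    push_cast at h
    linarith
  have key : scaleH (ℓ₁ * d) (gam0 (d * e) (ℓ₁ * ℓ₂) u v h • τ) =
      mkSL ((ℓ₁ : ℤ) * u) ((d : ℤ) * v) e ℓ₂ hδ • affH d ℓ₁ 0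
        (Nat.pos_of_ne_zero (NeZero.ne d)) (Nat.pos_of_ne_zero (NeZero.ne ℓ₁)) τ := by
    apply UpperHalfPlane.ext
    have hg : gam0 (d * e) (ℓ₁ * ℓ₂) u v h
        = mkSL u v ((d * e : ℕ) : ℤ) ((ℓ₁ * ℓ₂ : ℕ) : ℤ) h := rfl
    rw [coe_scaleH, hg, coe_mkSL_smul, coe_mkSL_smul, coe_affH]
    have hℓ : (ℓ₁ : ℂ) ≠ 0 := by exact_mod_cast NeZero.ne ℓ₁
    have h1 : (((d * e : ℕ) : ℤ) : ℂ) * τ + (((ℓ₁ * ℓ₂ : ℕ) : ℤ) : ℂ) ≠ 0 := by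
      have := UpperHalfPlane.linear_ne_zero
        (cd := ![(((d * e : ℕ) : ℤ) : ℝ), (((ℓ₁ * ℓ₂ : ℕ) : ℤ) : ℝ)]) τ (by
        intro h0
        have e0 := congrFun h0 0
        have e1 := congrFun h0 1
        simp only [Matrix.cons_val_zero, Matrix.cons_val_one, Pi.zero_apply] at e0 e1
        have e0' : ((d * e : ℕ) : ℤ) = 0 := by exact_mod_cast e0
        have e1' : ((ℓ₁ * ℓ₂ : ℕ) : ℤ) = 0 := by exact_mod_cast e1
        rw [e0', e1'] at h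
        simp at h)
      simpa using this
    have h2 : ((e : ℤ) : ℂ) * (((d : ℂ) * τ + ((0 : ℤ) : ℂ)) / ℓ₁) + ((ℓ₂ : ℤ) : ℂ)
        = ((((d * e : ℕ) : ℤ) : ℂ) * τ + (((ℓ₁ * ℓ₂ : ℕ) : ℤ) : ℂ)) / ℓ₁ := by
      push_cast
      field_simp
      ring
    rw [h2]
    push_cast at h1 ⊢
    field_simp
    ring
  rw [jD, key, jFun_smul]

end Fermat.Agent.CAR.FQ2E
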