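import Fermat.Agent.CAR.FQ2E.Norm

/-!
# CAR / FQ2E / Gal : Galois equivariance and the symmetry `eMid ξ ∘ w_{q²} = twist ξ ∘ eMid ξ⁻¹`
-/

set_option autoImplicit false

open ModularCurve AlgebraicCurve

noncomputable section

namespace Fermat.Agent.CAR.FQ2E

open Fermat.Agent.S24 Fermat.Agent.S28 Fermat.Agent.GR.HeckeField Fermat.Agent.TOR.GB
  Fermat.Agent.GAL

variable {M' q : ℕ} [NeZero M'] [NeZero q]

theorem Gal_galS_twist (σ : GQ) (ξ : Qbˣ) (x : LaurentSeries Qb) :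
    galS σ (twist ξ x) = twist (Units.map ((σ : Qb →+* Qb) : Qb →* Qb) ξ) (galS σ x) :=
  Fermat.Agent.GR.HeckeField.coeffMap_twist (σ : Qb →+* Qb) ξ x

theorem Gal_twist_twist_inv (ξ : Qbˣ) (x : LaurentSeries Qb) : twist ξ (twist ξ⁻¹ x) = x := by
  ext n
  rw [twist_coeff, twist_coeff, ← mul_assoc, ← Units.val_mul, inv_zpow, mul_inv_cancel,
    Units.val_one, one_mul]

/-- `σ (eMid ξ z) = eMid (σ ξ) (σ z)`. -/
theorem galS_eMid (hq : q.Prime) (hqM : ¬ q ∣ M') (σ : GQ) {ξ : Qbˣ} (hξ : ξ ^ q = 1)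
    (z : FN (M' * q * q)) :
    galS σ (eMid M' q ξ z)
      = eMid M' q (Units.map ((σ : Qb →+* Qb) : Qb →* Qb) ξ) (galF (M' * q * q) σ z) := by
  by_cases hξ1 : ξ = 1
  · rw [hξ1, map_one, eMid_one, eMid_one, coe_galF]
  have hξ' : (Units.map ((σ : Qb →+* Qb) : Qb →* Qb) ξ) ^ q = 1 := by
    rw [← map_pow, hξ, map_one]
  have hξ1' : Units.map ((σ : Qb →+* Qb) : Qb →* Qb) ξ ≠ 1 := by
    intro h
    apply hξ1
    have h1 : σ (ξ : Qb) = 1 := congrArg Units.val h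
    exact Units.ext ((map_eq_one_iff σ σ.injective).1 h1)
  have key : (galS σ).comp (eMid M' q ξ)
      = (eMid M' q (Units.map ((σ : Qb →+* Qb) : Qb →* Qb) ξ)).comp
        (galF (M' * q * q) σ : FN (M' * q * q) →+* FN (M' * q * q)) := by
    apply ringHom_ext_alp_bet (M' * q) q hq
    · intro y
      show galS σ (eMid M' q ξ (alp (M' * q) q y))
        = eMid M' q _ (galF (M' * q * q) σ (alp (M' * q) q y))
      rw [eMid_alp, galF_alp, eMid_alp, coe_galF]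
    · intro y
      show galS σ (eMid M' q ξ (bet (M' * q) q y))
        = eMid M' q _ (galF (M' * q * q) σ (bet (M' * q) q y))
      rw [eMid_bet hq hqM hξ hξ1, galF_bet, eMid_bet hq hqM hξ' hξ1', wq_galF hq hqM, coe_galF,
        Gal_galS_twist]
  exact DFunLike.congr_fun key z

/-- `eMid ξ ∘ w_{q²} = twist ξ ∘ eMid ξ⁻¹` (`ξ ≠ 1`). -/
theorem eMid_wqq (hq : q.Prime) (hqM : ¬ q ∣ M') {ξ : Qbˣ} (hξ : ξ ^ q = 1) (hξ1 : ξ ≠ 1)
    (z : FN (M' * q * q)) :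
    eMid M' q ξ (wqq M' q z) = twist ξ (eMid M' q ξ⁻¹ z) := by
  have hξi : ξ⁻¹ ^ q = 1 := by rw [inv_pow, hξ, inv_one]
  have hξi1 : ξ⁻¹ ≠ 1 := fun h => hξ1 (inv_eq_one.1 h)
  have key : (eMid M' q ξ).comp (wqq M' q : FN (M' * q * q) →+* FN (M' * q * q))
      = (twist ξ).comp (eMid M' q ξ⁻¹) := by
    apply ringHom_ext_alp_bet (M' * q) q hq
    · intro y
      show eMid M' q ξ (wqq M' q (alp (M' * q) q y)) = twist ξ (eMid M' q ξ⁻¹ (alp (M' * q) q y))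
      rw [wqq_alp hq hqM, eMid_bet hq hqM hξ hξ1, wq_wq hq hqM, eMid_alp]
    · intro y
      show eMid M' q ξ (wqq M' q (bet (M' * q) q y)) = twist ξ (eMid M' q ξ⁻¹ (bet (M' * q) q y))
      rw [wqq_bet hq hqM, eMid_alp, eMid_bet hq hqM hξi hξi1, Gal_twist_twist_inv]
  exact DFunLike.congr_fun key z

theorem N2_galF (hq : q.Prime) (hqM : ¬ q ∣ M') (σ : GQ) (z : FN (M' * q * q)) :
    N2 M' q (galF (M' * q * q) σ z) = galF (M' * q) σ (N2 M' q z) := by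
  apply Subtype.ext
  rw [coe_N2 hq hqM, coe_galF, coe_galF, coe_N2 hq hqM]
  exact (NmL_coeffMap (σ : Qb →+* Qb) q _).symm

theorem N1_galF (hq : q.Prime) (hqM : ¬ q ∣ M') (σ : GQ) (z : FN (M' * q * q)) :
    N1 M' q (galF (M' * q * q) σ z) = galF (M' * q) σ (N1 M' q z) := by
  rw [N1_eq hq hqM, N1_eq hq hqM, wqq_galF hq hqM, N2_galF hq hqM, wq_galF hq hqM]

/-- a Galois-fixed `z` (by `σ`) has `σ`-conjugate middle expansions. -/
theorem galS_eMid_of_fixed (hq : q.Prime) (hqM : ¬ q ∣ M') (σ : GQ) {ξ : Qbˣ} (hξ : ξ ^ q = 1)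
    (z : FN (M' * q * q)) (hz : galF (M' * q * q) σ z = z) :
    galS σ (eMid M' q ξ z) = eMid M' q (Units.map ((σ : Qb →+* Qb) : Qb →* Qb) ξ) z := by
  rw [galS_eMid hq hqM σ hξ, hz]

end Fermat.Agent.CAR.FQ2E
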