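import Fermat.Agent.CAR.FQ2E.MidC

/-!
# CAR / FQ2E / Mid : the expansions at the middle cusps of `X₀(M' q²)`

`F' = FN M'`, `F1 = FN (M' * q)`, `F = FN (M' * q * q)`, `π₁ = alp (M' * q) q`, `π₂ = bet (M' * q) q`.
For a `q`-th root of unity `ξ ≠ 1`:  `eMid M' q ξ : F →+* ℚ̄((Q))` with
`eMid ξ ∘ π₁ = coe`, `eMid ξ ∘ π₂ = twist ξ ∘ coe ∘ w_q`, i.e.
`x(Q) ↦ x(Q)`, `x(Q^q) ↦ x(Q^q)`, `x(Q^{q²}) ↦ x(ξ Q)` for `x ∈ F'`.   `eMid 1 = coe`.
-/

set_option autoImplicit false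

open UpperHalfPlane ModularForm Function ModularCurve
open scoped Manifold MatrixGroups

noncomputable section

namespace Fermat.Agent.CAR.FQ2E

open Fermat.Agent.S24 Fermat.Agent.S28 Fermat.Agent.GR.HeckeField Fermat.Agent.TOR.GB

/-- abstract descent: a ring hom whose values on generators lie in the range of `Θ` factors
through `Θ`. -/
theorem exists_ringHom_of_range {K F E E' I : Type*} [Field K] [Field F] [Field E] [Field E']
    [Algebra K F] (x : I → F)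
    (hx : ∀ z : F, ∃ r s : MvPolynomial I K, z = MvPolynomial.aeval x r / MvPolynomial.aeval x s)
    (φ : F →+* E') (Θ : E →+* E') (hc : ∀ a : K, φ (algebraMap K F a) ∈ Θ.range)
    (h : ∀ i, φ (x i) ∈ Θ.range) : ∃ e : F →+* E, ∀ z, Θ (e z) = φ z := by
  have key : ∀ P : MvPolynomial I K, φ (MvPolynomial.aeval x P) ∈ Θ.fieldRange := by
    intro P
    induction P using MvPolynomial.induction_on with
    | C a => rw [MvPolynomial.aeval_C]; exact hc a
    | add p q hp hq => rw [map_add, map_add]; exact add_mem hp hq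
    | mul_X p i hp =>
      rw [map_mul, map_mul, MvPolynomial.aeval_X]
      exact mul_mem hp (h i)
  have hall : ∀ z, ∃ y, Θ y = φ z := by
    intro z
    obtain ⟨r, s, rfl⟩ := hx z
    rw [map_div₀]
    exact RingHom.mem_fieldRange.1 (div_mem (key r) (key s))
  choose e he using hall
  exact ⟨{ toFun := e
           map_one' := Θ.injective (by rw [he, map_one, map_one])
           map_mul' := fun a b => Θ.injective (by rw [he, map_mul, map_mul, he, he])
           map_zero' := Θ.injective (by rw [he, map_zero, map_zero])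
           map_add' := fun a b => Θ.injective (by rw [he, map_add, map_add, he, he]) }, he⟩

variable (M' q : ℕ) [NeZero M'] [NeZero q]

theorem exists_eMid (hq : q.Prime) (hqM : ¬ q ∣ M') (ξ : Kbˣ) (hξ : ξ ^ q = 1) (hξ1 : ξ ≠ 1) :
    ∃ e : FN (M' * q * q) →+* LaurentSeries Kb,
      (∀ y : FN (M' * q), e (alp (M' * q) q y) = (y : LaurentSeries Kb)) ∧
      (∀ y : FN (M' * q), e (bet (M' * q) q y)
        = twist ξ ((wq M' q y : FN (M' * q)) : LaurentSeries Kb)) := by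
  -- the root of unity over `ℂ`
  have hξ' : (Units.map (iota : Kb →* ℂ) ξ) ^ q = 1 := by rw [← map_pow, hξ, map_one]
  obtain ⟨c, hcq, hc⟩ : ∃ c < q, rootU q 1 ^ c = Units.map (iota : Kb →* ℂ) ξ := by
    have h0 : IsPrimitiveRoot ((rootU q 1 : ℂˣ) : ℂ) q :=
      IsPrimitiveRoot.coe_units_iff.2 (isPrimitiveRoot_rootU q)
    have h1 : ((Units.map (iota : Kb →* ℂ) ξ : ℂˣ) : ℂ) ^ q = 1 := by
      rw [← Units.val_pow_eq_pow_val, hξ', Units.val_one]
    obtain ⟨c, hcq, hc⟩ := h0.eq_pow_of_pow_eq_one h1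
    exact ⟨c, hcq, Units.ext (by rw [Units.val_pow_eq_pow_val, hc])⟩
  have hc0 : c ≠ 0 := by
    rintro rfl
    rw [pow_zero] at hc
    exact hξ1 (Units.map_injective iota.injective (hc.symm.trans (map_one _).symm))
  have hroot : rootU q ((c : ℕ) : ℤ) = Units.map (iota : Kb →* ℂ) ξ := by
    rw [rootU_natCast, hc]
  have hcop : Nat.Coprime (c * M') q := by
    apply Nat.Coprime.symm
    rw [Nat.Prime.coprime_iff_not_dvd hq, hq.dvd_mul]
    rintro (h | h)
    · exact absurd (Nat.le_of_dvd (Nat.pos_of_ne_zero hc0) h) (by omega)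
    · exact hqM h
  obtain ⟨i, b, hib⟩ := Nat.isCoprime_iff_coprime.mpr hcop
  have hrel : ((c : ℕ) : ℤ) * (M' : ℤ) * i - q * (-b) = 1 := by
    push_cast at hib
    linarith
  set γ := gamL (((M' * q : ℕ) : ℤ) * i) with hγ
  let Θ : LaurentSeries Kb →+* LaurentSeries ℂ := (qExpand ℂ (M' * q * q)).comp (coeffMap iota)
  have hΘ : ∀ z, Θ z = qExpand ℂ (M' * q * q) (coeffMap iota z) := fun _ => rfl
  have hΘinj : Function.Injective Θ :=
    (qExpand_injective (R := ℂ) (M' * q * q)).comp coeffMap_iota_injective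
  have hA : ∀ y : FN (M' * q), emb (M' * q) q γ (alp (M' * q) q y) = Θ (y : LaurentSeries Kb) := by
    intro y
    rw [hγ, emb_gamL_alp, kap_apply, coe_heckeAlphaBar, hΘ]
  have hB : ∀ y : FN (M' * q), emb (M' * q) q γ (bet (M' * q) q y)
      = Θ (twist ξ ((wq M' q y : FN (M' * q)) : LaurentSeries Kb)) := by
    intro y
    rw [hγ, emb_gamL_bet M' q hq hqM c i (-b) hrel, hΘ,
      Fermat.Agent.GR.HeckeField.coeffMap_twist, hroot]
  obtain ⟨e, he⟩ := exists_ringHom_of_range (K := Kb) (genX (M' * q) q)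
    (genX_generates (M' * q) q hq) (emb (M' * q) q γ) Θ
    (fun a => by
      have := hA (algebraMap Kb (FN (M' * q)) a)
      rw [AlgHom.commutes] at this
      exact ⟨_, this.symm⟩)
    (by
      rintro ⟨p, _ | _⟩
      · exact ⟨_, (hA _).symm⟩
      · exact ⟨_, (hB _).symm⟩)
  exact ⟨e, fun y => hΘinj (by rw [he, hA]), fun y => hΘinj (by rw [he, hB])⟩

open Classical in
/-- **the expansion at the middle cusp `ξ`** (the coercion if `ξ = 1` or in junk cases). -/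
def eMid (ξ : Kbˣ) : FN (M' * q * q) →+* LaurentSeries Kb :=
  if h : (q.Prime ∧ ¬ q ∣ M') ∧ (ξ ^ q = 1 ∧ ξ ≠ 1) then
    Classical.choose (exists_eMid M' q h.1.1 h.1.2 ξ h.2.1 h.2.2)
  else algebraMap (FN (M' * q * q)) (LaurentSeries Kb)

variable {M' q}

theorem eMid_one (z : FN (M' * q * q)) : eMid M' q 1 z = (z : LaurentSeries Kb) := by
  rw [eMid, dif_neg (fun h => h.2.2 rfl), IntermediateField.algebraMap_apply]

/-- no hypothesis needed. -/
theorem eMid_alp (ξ : Kbˣ) (y : FN (M' * q)) :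
    eMid M' q ξ (alp (M' * q) q y) = (y : LaurentSeries Kb) := by
  by_cases h : (q.Prime ∧ ¬ q ∣ M') ∧ (ξ ^ q = 1 ∧ ξ ≠ 1)
  · rw [eMid, dif_pos h]
    exact (Classical.choose_spec (exists_eMid M' q h.1.1 h.1.2 ξ h.2.1 h.2.2)).1 y
  · have h0 : eMid M' q ξ = algebraMap (FN (M' * q * q)) (LaurentSeries Kb) := by
      rw [eMid, dif_neg h]
    rw [h0, IntermediateField.algebraMap_apply]
    exact coe_heckeAlphaBar (M' * q) q y

theorem eMid_bet (hq : q.Prime) (hqM : ¬ q ∣ M') {ξ : Kbˣ} (hξ : ξ ^ q = 1) (hξ1 : ξ ≠ 1)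
    (y : FN (M' * q)) :
    eMid M' q ξ (bet (M' * q) q y) = twist ξ ((wq M' q y : FN (M' * q)) : LaurentSeries Kb) := by
  rw [eMid, dif_pos ⟨⟨hq, hqM⟩, hξ, hξ1⟩]
  exact (Classical.choose_spec (exists_eMid M' q hq hqM ξ hξ hξ1)).2 y

theorem eMid_algebraMap (ξ : Kbˣ) (a : Kb) :
    eMid M' q ξ (algebraMap Kb (FN (M' * q * q)) a) = algebraMap Kb (LaurentSeries Kb) a := by
  have h := eMid_alp (M' := M') (q := q) ξ (algebraMap Kb (FN (M' * q)) a)
  rw [AlgHom.commutes] at h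
  rw [h]
  rfl

/-- uniqueness. -/
theorem eq_eMid (hq : q.Prime) (hqM : ¬ q ∣ M') {ξ : Kbˣ} (hξ : ξ ^ q = 1) (hξ1 : ξ ≠ 1)
    (e : FN (M' * q * q) →+* LaurentSeries Kb)
    (h1 : ∀ y : FN (M' * q), e (alp (M' * q) q y) = (y : LaurentSeries Kb))
    (h2 : ∀ y : FN (M' * q), e (bet (M' * q) q y)
        = twist ξ ((wq M' q y : FN (M' * q)) : LaurentSeries Kb)) : e = eMid M' q ξ := by
  apply ringHom_ext_alp_bet (M' * q) q hq
  · intro y
    rw [h1, eMid_alp]
  · intro y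
    rw [h2, eMid_bet hq hqM hξ hξ1]

/-- on the three copies of `F'`. -/
theorem eMid_alp_alp (ξ : Kbˣ) (x : FN M') :
    eMid M' q ξ (alp (M' * q) q (alp M' q x)) = (x : LaurentSeries Kb) := by
  rw [eMid_alp]
  exact coe_heckeAlphaBar M' q x

theorem eMid_alp_bet (ξ : Kbˣ) (x : FN M') :
    eMid M' q ξ (alp (M' * q) q (bet M' q x)) = qExpand Kb q (x : LaurentSeries Kb) := by
  rw [eMid_alp]
  exact coe_heckeBetaBar M' q x

theorem eMid_bet_bet (hq : q.Prime) (hqM : ¬ q ∣ M') {ξ : Kbˣ} (hξ : ξ ^ q = 1) (hξ1 : ξ ≠ 1)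
    (x : FN M') :
    eMid M' q ξ (bet (M' * q) q (bet M' q x)) = twist ξ (x : LaurentSeries Kb) := by
  rw [eMid_bet hq hqM hξ hξ1, wq_bet hq hqM, coe_heckeAlphaBar]

theorem Mid_coeff_one (hq : q.Prime) :
    (eMid M' q 1 (bet (M' * q) q (bet M' q (JJ M')))).coeff (-1) = 0 := by
  rw [eMid_one]
  have h1 : ((bet (M' * q) q (bet M' q (JJ M')) : FN (M' * q * q)) : LaurentSeries Kb)
      = qExpand Kb q ((bet M' q (JJ M') : FN (M' * q)) : LaurentSeries Kb) :=
    coe_heckeBetaBar (M' * q) q _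
  rw [h1]
  apply qExpand_coeff_of_not_dvd
  intro hdvd
  rw [dvd_neg] at hdvd
  have h2 : q ∣ 1 := by exact_mod_cast hdvd
  exact hq.one_lt.ne' (Nat.dvd_one.1 h2)

theorem Mid_coeff_of_ne (hq : q.Prime) (hqM : ¬ q ∣ M') {ξ : Kbˣ} (hξ : ξ ^ q = 1) (hξ1 : ξ ≠ 1) :
    (eMid M' q ξ (bet (M' * q) q (bet M' q (JJ M')))).coeff (-1) = ((ξ⁻¹ : Kbˣ) : Kb) := by
  rw [eMid_bet_bet hq hqM hξ hξ1, twist_coeff, coeff_JJ_neg_one, mul_one, zpow_neg_one]

/-- the `eMid ξ`, `ξ^q = 1` (including `ξ = 1`), are pairwise distinct. -/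
theorem eMid_injOn (hq : q.Prime) (hqM : ¬ q ∣ M') {ξ ξ' : Kbˣ} (hξ : ξ ^ q = 1) (hξ' : ξ' ^ q = 1)
    (h : eMid M' q ξ = eMid M' q ξ') : ξ = ξ' := by
  have hc := congrArg (fun φ : FN (M' * q * q) →+* LaurentSeries Kb =>
    (φ (bet (M' * q) q (bet M' q (JJ M')))).coeff (-1)) h
  by_cases h1 : ξ = 1
  · by_cases h2 : ξ' = 1
    · rw [h1, h2]
    · exfalso
      rw [h1, Mid_coeff_one hq, Mid_coeff_of_ne hq hqM hξ' h2] at hc
      exact Units.ne_zero _ hc.symm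
  · by_cases h2 : ξ' = 1
    · exfalso
      rw [h2, Mid_coeff_one hq, Mid_coeff_of_ne hq hqM hξ h1] at hc
      exact Units.ne_zero _ hc
    · rw [Mid_coeff_of_ne hq hqM hξ h1, Mid_coeff_of_ne hq hqM hξ' h2] at hc
      exact inv_injective (Units.ext hc)

end Fermat.Agent.CAR.FQ2E
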