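import Fermat.Agent.CAR.FQ2E.Emb

/-!
# CAR / FQ2E / MidC : the middle cusps of `X₀(M' q²)`, computation over `ℂ`

`F' = FN M'`, `F1 = FN (M' * q)`, `F = FN (M' * q * q)`, `π₁ = alp (M' * q) q`, `π₂ = bet (M' * q) q`.
For a `q`-th root of unity `ξ ≠ 1`:  `eMid M' q ξ : F →+* ℚ̄((Q))` with
`eMid ξ ∘ π₁ = coe`, `eMid ξ ∘ π₂ = twist ξ ∘ coe ∘ w_q`, i.e.
`x(Q) ↦ x(Q)`, `x(Q^q) ↦ x(Q^q)`, `x(Q^{q²}) ↦ x(ξ Q)` for `x ∈ F'`.   `eMid 1 = coe`.
-/

set_option autoImplicit false

open UpperHalfPlane ModularForm Function ModularCurve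
open scoped Manifold MatrixGroups

noncomputable section

namespace Fermat.Agent.CAR.FQ2E

open Fermat.Agent.S24 Fermat.Agent.S28 Fermat.Agent.GR.HeckeField Fermat.Agent.TOR.GB

variable (M' q : ℕ) [NeZero M'] [NeZero q]

/-- `x(Q^q)`: the two ways. -/
theorem bet_alp (x : FN M') :
    bet (M' * q) q (alp M' q x) = alp (M' * q) q (bet M' q x) := by
  apply Subtype.ext
  have e1 : ((bet (M' * q) q (alp M' q x) : FN (M' * q * q)) : LaurentSeries Kb)
      = qExpand Kb q ((alp M' q x : FN (M' * q)) : LaurentSeries Kb) := coe_heckeBetaBar (M' * q) q _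
  have e2 : ((alp M' q x : FN (M' * q)) : LaurentSeries Kb) = (x : LaurentSeries Kb) :=
    coe_heckeAlphaBar M' q _
  have e3 : ((alp (M' * q) q (bet M' q x) : FN (M' * q * q)) : LaurentSeries Kb)
      = ((bet M' q x : FN (M' * q)) : LaurentSeries Kb) := coe_heckeAlphaBar (M' * q) q _
  have e4 : ((bet M' q x : FN (M' * q)) : LaurentSeries Kb) = qExpand Kb q (x : LaurentSeries Kb) :=
    coe_heckeBetaBar M' q _
  rw [e1, e2, e3, e4]

theorem emb_gamL_alp (i : ℤ) (y : FN (M' * q)) :
    emb (M' * q) q (gamL (((M' * q : ℕ) : ℤ) * i)) (alp (M' * q) q y)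
      = kap (M' * q * q) (alp (M' * q) q y) := by
  exact emb_alp (M' * q) q (gamL_mem _ _ (Dvd.intro _ rfl)) y

/-- the key computation, on `x(Q^{q²})`, `x ∈ F'`. -/
theorem emb_gamL_bet_bet (c i r : ℤ) (h : c * (M' : ℤ) * i - q * r = 1) (x : FN M') :
    emb (M' * q) q (gamL (((M' * q : ℕ) : ℤ) * i)) (bet (M' * q) q (bet M' q x))
      = qExpand ℂ (M' * q * q) (twist (rootU q c) (coeffMap iota (x : LaurentSeries Kb))) := by
  let f : FN M' →+* LaurentSeries ℂ :=
    (emb (M' * q) q (gamL (((M' * q : ℕ) : ℤ) * i))).comp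
      ((bet (M' * q) q).toRingHom.comp (bet M' q).toRingHom)
  let g : FN M' →+* LaurentSeries ℂ :=
    (qExpand ℂ (M' * q * q)).comp ((twist (rootU q c)).comp ((coeffMap iota).comp
      (algebraMap (FN M') (LaurentSeries Kb))))
  have key : f = g := by
    apply ringHom_ext_FN
    · intro a
      show emb (M' * q) q _ (bet (M' * q) q (bet M' q (algebraMap Kb (FN M') a))) =
        qExpand ℂ (M' * q * q) (twist (rootU q c)
          (coeffMap iota (algebraMap Kb (LaurentSeries Kb) a)))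
      rw [AlgHom.commutes, AlgHom.commutes, emb_algebraMap, algebraMap_laurentSeries_eq_single,
        coeffMap_single, twist_single_zero, qExpand_single, mul_zero]
    · intro d _ hd
      show emb (M' * q) q _ (bet (M' * q) q (bet M' q (Jd M' d hd))) =
        qExpand ℂ (M' * q * q) (twist (rootU q c) (coeffMap iota (JdL d)))
      obtain ⟨e, rfl⟩ := hd
      rw [bet_Jd, bet_Jd, coeffMap_iota_JdL, twist_qExpand, qExpand_qExpand, rootU_pow]
      exact emb_Jd_of_affH (d * e * q) q _ (q * (q * d)) _ (q * d) q (d * c)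
        (Nat.pos_of_ne_zero (NeZero.ne _)) (Nat.pos_of_ne_zero (NeZero.ne q)) (d * e * q * q * d)
        (by ring) (fun τ => jD_gamL_smul d e q c i r h τ)
  exact DFunLike.congr_fun key x

theorem emb_gamL_bet (hq : q.Prime) (hqM : ¬ q ∣ M') (c i r : ℤ)
    (h : c * (M' : ℤ) * i - q * r = 1) (y : FN (M' * q)) :
    emb (M' * q) q (gamL (((M' * q : ℕ) : ℤ) * i)) (bet (M' * q) q y)
      = qExpand ℂ (M' * q * q) (twist (rootU q c)
          (coeffMap iota ((wq M' q y : FN (M' * q)) : LaurentSeries Kb))) := by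
  let f : FN (M' * q) →+* LaurentSeries ℂ :=
    (emb (M' * q) q (gamL (((M' * q : ℕ) : ℤ) * i))).comp (bet (M' * q) q).toRingHom
  let g : FN (M' * q) →+* LaurentSeries ℂ :=
    ((qExpand ℂ (M' * q * q)).comp ((twist (rootU q c)).comp ((coeffMap iota).comp
      (algebraMap (FN (M' * q)) (LaurentSeries Kb))))).comp
        (wq M' q : FN (M' * q) →+* FN (M' * q))
  have key : f = g := by
    apply ringHom_ext_alp_bet M' q hq
    · intro x
      show emb (M' * q) q _ (bet (M' * q) q (alp M' q x)) =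
        qExpand ℂ (M' * q * q) (twist (rootU q c)
          (coeffMap iota ((wq M' q (alp M' q x) : FN (M' * q)) : LaurentSeries Kb)))
      have e3 : ((alp (M' * q) q (bet M' q x) : FN (M' * q * q)) : LaurentSeries Kb)
          = ((bet M' q x : FN (M' * q)) : LaurentSeries Kb) := coe_heckeAlphaBar (M' * q) q _
      have e4 : ((bet M' q x : FN (M' * q)) : LaurentSeries Kb)
          = qExpand Kb q (x : LaurentSeries Kb) := coe_heckeBetaBar M' q _
      rw [bet_alp, emb_gamL_alp, kap_apply, wq_alp hq hqM, e3, e4, coeffMap_qExpand, twist_qExpand,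
        rootU_pow_self, twist_one']
    · intro x
      show emb (M' * q) q _ (bet (M' * q) q (bet M' q x)) =
        qExpand ℂ (M' * q * q) (twist (rootU q c)
          (coeffMap iota ((wq M' q (bet M' q x) : FN (M' * q)) : LaurentSeries Kb)))
      have e2 : ((alp M' q x : FN (M' * q)) : LaurentSeries Kb) = (x : LaurentSeries Kb) :=
        coe_heckeAlphaBar M' q _
      rw [wq_bet hq hqM, e2, emb_gamL_bet_bet M' q c i r h]
  exact DFunLike.congr_fun key y

end Fermat.Agent.CAR.FQ2E
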