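import Fermat.Agent.CAR.FQ2E.Mid
import Fermat.Agent.CAR.FQ2E.Deg

/-!
# CAR / FQ2E / Norm : the two norms `N1, N2 : F = FN (M' q²) → F1 = FN (M' q)` and their expansions

* `N1` = norm along `π₁ = alp` (`τ ↦ τ`),  `N2` = norm along `π₂ = bet` (`τ ↦ qτ`).
* `coe_N1`    : `(N1 z)(Q) = ∏_{k<q} eMid (ζ^k) z = z(Q) ∏_{ξ ≠ 1} eMid ξ z`      (cusp ∞ of `X₀(q)`: (e,f)=(1,1),(q-1,1))
* `coe_N2`    : `(N2 z)(Q) = NmL q z`, i.e. `(N2 z)(Q^q) = ∏_k z(ζ^k Q)`            ((e,f) = (1,q))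
* `N1_eq`     : `N1 z = w_q (N2 (w_{q²} z))`.
* `coe_wq_N1` : `(w_q N1 z)(Q) = NmL q (w_{q²} z)`                                   (cusp 0)
* `coe_wq_N2` : `(w_q N2 z)(Q) = (w_{q²} z)(Q) ∏_{ξ ≠ 1} eMid ξ (w_{q²} z)`.
-/

set_option autoImplicit false

open ModularCurve AlgebraicCurve

noncomputable section

namespace Fermat.Agent.CAR.FQ2E

open Fermat.Agent.S24 Fermat.Agent.S28 Fermat.Agent.GR.HeckeField Fermat.Agent.TOR.GB
  Fermat.Agent.GAL

variable {M' q : ℕ} [NeZero M'] [NeZero q]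


/-- transport of structure by `(w_q, w_{q²})`. -/
theorem N1_eq (hq : q.Prime) (hqM : ¬ q ∣ M') (z : FN (M' * q * q)) :
    N1 M' q z = wq M' q (N2 M' q (wqq M' q z)) := by
  have h := @Algebra.norm_eq_of_equiv_equiv (FN (M' * q)) (FN (M' * q * q)) (FN (M' * q))
    (FN (M' * q * q)) _ _ _ _ (algFN (M' * q) q) (algBet M' q) (wq M' q).toRingEquiv
    (wqq M' q).toRingEquiv (by
      refine RingHom.ext fun y => ?_
      exact (wqq_alp hq hqM y).symm) z
  have hs : ∀ y : FN (M' * q), (wq M' q).toRingEquiv.symm y = wq M' q y := by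
    intro y
    rw [RingEquiv.symm_apply_eq]
    exact (wq_wq hq hqM y).symm
  rw [hs] at h
  exact h

theorem N2_eq (hq : q.Prime) (hqM : ¬ q ∣ M') (z : FN (M' * q * q)) :
    N2 M' q z = wq M' q (N1 M' q (wqq M' q z)) := by
  rw [N1_eq hq hqM, wqq_wqq hq hqM, wq_wq hq hqM]

/-- **(N1, cusp ∞)**. -/
theorem coe_N1 (hq : q.Prime) (hqM : ¬ q ∣ M') {ζ : Qbˣ} (hζ : IsPrimitiveRoot ζ q)
    (z : FN (M' * q * q)) :
    ((N1 M' q z : FN (M' * q)) : LaurentSeries Qb) = ∏ k ∈ Finset.range q, eMid M' q (ζ ^ k) z := by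
  letI := algFN (M' * q) q
  have hfr : Module.finrank (FN (M' * q)) (FN (M' * q * q)) = q := finrank_alp M' q hq hqM
  haveI : FiniteDimensional (FN (M' * q)) (FN (M' * q * q)) :=
    Module.finite_of_finrank_pos (by rw [hfr]; exact hq.pos)
  have key := norm_eq_prod_of_ringHoms (K := FN (M' * q)) (L := FN (M' * q * q))
    (fun k : Fin q => eMid M' q (ζ ^ (k : ℕ)))
    (fun i j hij => by
      have h1 : ∀ k : ℕ, (ζ ^ k) ^ q = 1 := fun k => by
        rw [← pow_mul, mul_comm, pow_mul, hζ.pow_eq_one, one_pow]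
      exact Fin.ext (hζ.pow_inj i.2 j.2 (eMid_injOn hq hqM (h1 _) (h1 _) hij)))
    (fun i j x => by
      show eMid M' q _ (alp (M' * q) q x) = eMid M' q _ (alp (M' * q) q x)
      rw [eMid_alp, eMid_alp])
    (by rw [hfr, Fintype.card_fin]) ⟨0, hq.pos⟩ z
  rw [Finset.prod_range]
  refine Eq.trans ?_ key
  show _ = eMid M' q _ (alp (M' * q) q (N1 M' q z))
  rw [eMid_alp]

theorem coe_N1' (hq : q.Prime) (hqM : ¬ q ∣ M') {ζ : Qbˣ} (hζ : IsPrimitiveRoot ζ q)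
    (z : FN (M' * q * q)) :
    ((N1 M' q z : FN (M' * q)) : LaurentSeries Qb)
      = (z : LaurentSeries Qb) * ∏ k ∈ Finset.Ico 1 q, eMid M' q (ζ ^ k) z := by
  rw [coe_N1 hq hqM hζ, Finset.range_eq_Ico, Finset.prod_eq_prod_Ico_succ_bot hq.pos, pow_zero,
    eMid_one]

/-- **(N2, cusp ∞)**: `N2 = U_q` (multiplicative). -/
theorem coe_N2 (hq : q.Prime) (hqM : ¬ q ∣ M') (z : FN (M' * q * q)) :
    ((N2 M' q z : FN (M' * q)) : LaurentSeries Qb) = NmL Qb q (z : LaurentSeries Qb) := by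
  obtain ⟨ζ, hζ⟩ := exists_primitiveRoot_Qb q
  letI := algBet M' q
  have hfr : Module.finrank (FN (M' * q)) (FN (M' * q * q)) = q := finrank_bet M' q hq hqM
  haveI : FiniteDimensional (FN (M' * q)) (FN (M' * q * q)) :=
    Module.finite_of_finrank_pos (by rw [hfr]; exact hq.pos)
  have hfix : ∀ (k : ℕ) (x : FN (M' * q)),
      twist (ζ ^ k) ((bet (M' * q) q x : FN (M' * q * q)) : LaurentSeries Qb)
        = qExpand Qb q (x : LaurentSeries Qb) := by
    intro k x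
    rw [coe_heckeBetaBar, twist_qExpand, ← pow_mul, mul_comm, pow_mul, hζ.pow_eq_one, one_pow,
      twist_one']
  have key := norm_eq_prod_of_ringHoms (K := FN (M' * q)) (L := FN (M' * q * q))
    (fun k : Fin q => (twist (ζ ^ (k : ℕ))).comp
      (algebraMap (FN (M' * q * q)) (LaurentSeries Qb)))
    (fun i j hij => by
      have h1 := congrArg (fun x : LaurentSeries Qb => x.coeff (-1))
        (DFunLike.congr_fun hij (JJ (M' * q * q)))
      have h2 : ((ζ ^ (i : ℕ)) ^ (-1 : ℤ) : Qbˣ) = (ζ ^ (j : ℕ)) ^ (-1 : ℤ) := by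
        apply Units.ext
        have h3 : (((ζ ^ (i : ℕ)) ^ (-1 : ℤ) : Qbˣ) : Qb) *
            ((JJ (M' * q * q) : FN (M' * q * q)) : LaurentSeries Qb).coeff (-1) =
            (((ζ ^ (j : ℕ)) ^ (-1 : ℤ) : Qbˣ) : Qb) *
            ((JJ (M' * q * q) : FN (M' * q * q)) : LaurentSeries Qb).coeff (-1) := h1
        rwa [coeff_JJ_neg_one, mul_one, mul_one] at h3
      rw [zpow_neg_one, zpow_neg_one, inv_inj] at h2
      exact Fin.ext (hζ.pow_inj i.2 j.2 h2))
    (fun i j x => by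
      show twist _ ((bet (M' * q) q x : FN (M' * q * q)) : LaurentSeries Qb)
        = twist _ ((bet (M' * q) q x : FN (M' * q * q)) : LaurentSeries Qb)
      rw [hfix, hfix])
    (by rw [hfr, Fintype.card_fin]) ⟨0, hq.pos⟩ z
  apply qExpand_injective (R := Qb) q
  rw [qExpand_NmL q hζ, GR.conjProd, Finset.prod_range]
  refine Eq.trans ?_ key
  show _ = twist _ ((bet (M' * q) q (N2 M' q z) : FN (M' * q * q)) : LaurentSeries Qb)
  rw [hfix]

/-- `U_q` lowers the level `M' q² → M' q`. -/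
theorem NmL_mem_FL_of_sq (hq : q.Prime) (hqM : ¬ q ∣ M') {u : LaurentSeries Qb}
    (hu : u ∈ FL Qb (M' * q * q)) : NmL Qb q u ∈ FL Qb (M' * q) := by
  have h := coe_N2 hq hqM (⟨u, hu⟩ : FN (M' * q * q))
  rw [← h]
  exact (N2 M' q (⟨u, hu⟩ : FN (M' * q * q))).2

/-- **(N1, cusp 0)**. -/
theorem coe_wq_N1 (hq : q.Prime) (hqM : ¬ q ∣ M') (z : FN (M' * q * q)) :
    ((wq M' q (N1 M' q z) : FN (M' * q)) : LaurentSeries Qb)
      = NmL Qb q ((wqq M' q z : FN (M' * q * q)) : LaurentSeries Qb) := by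
  rw [N1_eq hq hqM, wq_wq hq hqM, coe_N2 hq hqM]

/-- **(N2, cusp 0)**. -/
theorem coe_wq_N2 (hq : q.Prime) (hqM : ¬ q ∣ M') {ζ : Qbˣ} (hζ : IsPrimitiveRoot ζ q)
    (z : FN (M' * q * q)) :
    ((wq M' q (N2 M' q z) : FN (M' * q)) : LaurentSeries Qb)
      = ((wqq M' q z : FN (M' * q * q)) : LaurentSeries Qb)
        * ∏ k ∈ Finset.Ico 1 q, eMid M' q (ζ ^ k) (wqq M' q z) := by
  rw [N2_eq hq hqM, wq_wq hq hqM, coe_N1' hq hqM hζ]

/-- norms of pull-backs. -/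
theorem N1_alp (hq : q.Prime) (hqM : ¬ q ∣ M') (y : FN (M' * q)) :
    N1 M' q (alp (M' * q) q y) = y ^ q := by
  letI := algFN (M' * q) q
  have hfr : Module.finrank (FN (M' * q)) (FN (M' * q * q)) = q := finrank_alp M' q hq hqM
  have h := Algebra.norm_algebraMap (R := FN (M' * q)) (S := FN (M' * q * q)) y
  rw [hfr] at h
  exact h

theorem N2_bet (hq : q.Prime) (hqM : ¬ q ∣ M') (y : FN (M' * q)) :
    N2 M' q (bet (M' * q) q y) = y ^ q := by
  letI := algBet M' q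
  have hfr : Module.finrank (FN (M' * q)) (FN (M' * q * q)) = q := finrank_bet M' q hq hqM
  have h := Algebra.norm_algebraMap (R := FN (M' * q)) (S := FN (M' * q * q)) y
  rw [hfr] at h
  exact h

end Fermat.Agent.CAR.FQ2E
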