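import Fermat.Agent.CAR.FQ2E.Deg

/-!
# CAR / FQ2E / NormC : the norm `N1` over `ℂ`, as a product over coset representatives

`kap (alp (N1 z)) = ∏_i emb (γ i) z` for any system `γ i` of representatives of
`Γ₀(M' q) / Γ₀(M' q²)`; in particular for `γ_j = [[1,0],[-M' q j,1]]`, `j mod q`.
-/

set_option autoImplicit false

open UpperHalfPlane ModularForm Function ModularCurve
open scoped Manifold MatrixGroups

noncomputable section

namespace Fermat.Agent.CAR.FQ2E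

open Fermat.Agent.S24 Fermat.Agent.S28 Fermat.Agent.GR.HeckeField Fermat.Agent.TOR.GB

/-- `emb γ` determines the coset `γ Γ₀(Mℓ)`. -/
theorem emb_eq_imp (M ℓ : ℕ) [NeZero M] [NeZero ℓ] {γ γ' : SL(2, ℤ)}
    (h : emb M ℓ γ = emb M ℓ γ') : γ⁻¹ * γ' ∈ CongruenceSubgroup.Gamma0 (M * ℓ) := by
  have h1 : phi (M * ℓ) (γ : Cos (M * ℓ)) = phi (M * ℓ) (γ' : Cos (M * ℓ)) := by
    ext y
    apply LamL_injective (M * ℓ)
    rw [phi_mk, phi_mk]
    exact DFunLike.congr_fun h y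
  exact QuotientGroup.eq.mp (phi_injective (M * ℓ) h1)

variable {M' q : ℕ} [NeZero M'] [NeZero q]

attribute [local instance] algFN

/-- **the norm `N1` as a product over coset representatives.** -/
theorem kap_N1_of_reps (hq : q.Prime) (hqM : ¬ q ∣ M') {ι : Type*} [Fintype ι]
    (γ : ι → SL(2, ℤ)) (hγ : ∀ i, γ i ∈ CongruenceSubgroup.Gamma0 (M' * q))
    (hinj : ∀ i j, (γ i)⁻¹ * γ j ∈ CongruenceSubgroup.Gamma0 (M' * q * q) → i = j)
    (hcard : Fintype.card ι = q) (z : FN (M' * q * q)) :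
    kap (M' * q * q) (alp (M' * q) q (N1 M' q z)) = ∏ i, emb (M' * q) q (γ i) z := by
  have hfin : FiniteDimensional (FN (M' * q)) (FN (M' * q * q)) :=
    Module.finite_of_finrank_pos (by rw [finrank_alp M' q hq hqM]; exact hq.pos)
  have hne : Nonempty ι := by
    rw [← Fintype.card_pos_iff, hcard]
    exact hq.pos
  obtain ⟨i₀⟩ := hne
  have key := norm_eq_prod_of_ringHoms (K := FN (M' * q)) (L := FN (M' * q * q))
    (fun i => emb (M' * q) q (γ i)) (fun i j hij => hinj i j (emb_eq_imp (M' * q) q hij))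
    (fun i j x => by
      show emb (M' * q) q _ (alp (M' * q) q x) = emb (M' * q) q _ (alp (M' * q) q x)
      rw [emb_alp (M' * q) q (hγ i), emb_alp (M' * q) q (hγ j)])
    (by rw [finrank_alp M' q hq hqM, hcard]) i₀ z
  rw [← key]
  exact (emb_alp (M' * q) q (hγ i₀) _).symm

theorem mkSL_low_mul (m n : ℤ) :
    mkSL 1 0 m 1 (by ring) * mkSL 1 0 n 1 (by ring) = mkSL 1 0 (m + n) 1 (by ring) := by
  apply Subtype.ext
  rw [Matrix.SpecialLinearGroup.coe_mul]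
  simp only [mkSL, Matrix.mul_fin_two]
  congr 1
  ext i j
  fin_cases i <;> fin_cases j <;> simp

theorem gamL_inv_mul_mem (N : ℕ) (m n : ℤ)
    (h : (gamL m)⁻¹ * gamL n ∈ CongruenceSubgroup.Gamma0 N) : (N : ℤ) ∣ m - n := by
  have h1 : (gamL m)⁻¹ * gamL n = mkSL 1 0 (m - n) 1 (by ring) := by
    rw [gamL, gamL, inv_inv, mul_inv_eq_iff_eq_mul, mkSL_low_mul]
    apply Subtype.ext
    simp [mkSL]
  rw [h1, CongruenceSubgroup.Gamma0_mem] at h
  have h2 : (((m - n : ℤ)) : ZMod N) = 0 := by simpa [mkSL] using h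
  exact (ZMod.intCast_zmod_eq_zero_iff_dvd _ N).mp h2

/-- the representatives `[[1,0],[-M' q j,1]]`, `j mod q`. -/
theorem kap_N1 (hq : q.Prime) (hqM : ¬ q ∣ M') (z : FN (M' * q * q)) :
    kap (M' * q * q) (alp (M' * q) q (N1 M' q z))
      = ∏ j : Fin q, emb (M' * q) q (gamL (((M' * q : ℕ) : ℤ) * ((j : ℕ) : ℤ))) z := by
  refine kap_N1_of_reps hq hqM _ (fun j => gamL_mem _ _ (Dvd.intro _ rfl)) ?_
    (Fintype.card_fin q) z
  intro i j hij
  have h1 := gamL_inv_mul_mem _ _ _ hij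
  have h2 : ((M' * q : ℕ) : ℤ) * (q : ℤ) ∣ ((M' * q : ℕ) : ℤ) * (((i : ℕ) : ℤ) - ((j : ℕ) : ℤ)) := by
    have : ((M' * q * q : ℕ) : ℤ) = ((M' * q : ℕ) : ℤ) * (q : ℤ) := by push_cast; ring
    rw [← this, mul_sub]
    exact h1
  have h0 : ((M' * q : ℕ) : ℤ) ≠ 0 := by exact_mod_cast NeZero.ne (M' * q)
  have h3 : (q : ℤ) ∣ ((i : ℕ) : ℤ) - ((j : ℕ) : ℤ) := (mul_dvd_mul_iff_left h0).mp h2
  have h4 : ((i : ℕ) : ℤ) ≡ ((j : ℕ) : ℤ) [ZMOD q] := (Int.modEq_iff_dvd.mpr h3).symm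
  have h5 : (i : ℕ) ≡ (j : ℕ) [MOD q] := Int.natCast_modEq_iff.mp h4
  apply Fin.ext
  have := Nat.ModEq.eq_of_lt_of_lt h5 i.2 j.2
  exact this

end Fermat.Agent.CAR.FQ2E
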