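import Fermat.Agent.CAR.FQ2E.WqqC

/-!
# CAR / FQ2E / Wqq : the Atkin--Lehner involution `w_{q²}` of `F = FN (M' * q * q)`

`wqq ∘ π₁ = π₂ ∘ w_q`, `wqq ∘ π₂ = π₁ ∘ w_q`, i.e. `x(Q) ↔ x(Q^{q²})`, `x(Q^q)` fixed (`x ∈ F'`).
-/

set_option autoImplicit false

open UpperHalfPlane ModularForm Function ModularCurve
open scoped Manifold MatrixGroups

noncomputable section

namespace Fermat.Agent.CAR.FQ2E

open Fermat.Agent.S24 Fermat.Agent.S28 Fermat.Agent.GR.HeckeField Fermat.Agent.TOR.GB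

variable (M' q : ℕ) [NeZero M'] [NeZero q]

/-- `x(Q^q)` seen from the two sides. -/
theorem Wqq_bet_alp (x : FN M') :
    bet (M' * q) q (alp M' q x) = alp (M' * q) q (bet M' q x) := by
  apply Subtype.ext
  rw [coe_heckeBetaBar, coe_heckeAlphaBar, coe_heckeAlphaBar, coe_heckeBetaBar]

theorem Wqq_emb_alp (hq : q.Prime) (hqM : ¬ q ∣ M') (u v : ℤ)
    (h : u * ((q * q : ℕ) : ℤ) - v * (M' : ℤ) = 1) (y : FN (M' * q)) :
    emb (M' * q) q (gamW M' q u v h) (alp (M' * q) q y)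
      = PhiW M' q (bet (M' * q) q (wq M' q y)) := by
  have key : (emb (M' * q) q (gamW M' q u v h)).comp (alp (M' * q) q : FN (M' * q) →+* FN (M' * q * q))
      = (PhiW M' q).comp (((bet (M' * q) q : FN (M' * q) →+* FN (M' * q * q))).comp
        (wq M' q : FN (M' * q) →+* FN (M' * q))) := by
    apply ringHom_ext_alp_bet M' q hq
    · intro x
      show emb (M' * q) q (gamW M' q u v h) (alp (M' * q) q (alp M' q x))
        = PhiW M' q (bet (M' * q) q (wq M' q (alp M' q x)))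
      rw [wq_alp hq hqM, emb_gamW_0]
    · intro x
      show emb (M' * q) q (gamW M' q u v h) (alp (M' * q) q (bet M' q x))
        = PhiW M' q (bet (M' * q) q (wq M' q (bet M' q x)))
      rw [wq_bet hq hqM, emb_gamW_1, Wqq_bet_alp]
  exact DFunLike.congr_fun key y

theorem Wqq_emb_bet (hq : q.Prime) (hqM : ¬ q ∣ M') (u v : ℤ)
    (h : u * ((q * q : ℕ) : ℤ) - v * (M' : ℤ) = 1) (y : FN (M' * q)) :
    emb (M' * q) q (gamW M' q u v h) (bet (M' * q) q y)
      = PhiW M' q (alp (M' * q) q (wq M' q y)) := by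
  have key : (emb (M' * q) q (gamW M' q u v h)).comp (bet (M' * q) q : FN (M' * q) →+* FN (M' * q * q))
      = (PhiW M' q).comp (((alp (M' * q) q : FN (M' * q) →+* FN (M' * q * q))).comp
        (wq M' q : FN (M' * q) →+* FN (M' * q))) := by
    apply ringHom_ext_alp_bet M' q hq
    · intro x
      show emb (M' * q) q (gamW M' q u v h) (bet (M' * q) q (alp M' q x))
        = PhiW M' q (alp (M' * q) q (wq M' q (alp M' q x)))
      rw [wq_alp hq hqM, Wqq_bet_alp, emb_gamW_1]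
    · intro x
      show emb (M' * q) q (gamW M' q u v h) (bet (M' * q) q (bet M' q x))
        = PhiW M' q (alp (M' * q) q (wq M' q (bet M' q x)))
      rw [wq_bet hq hqM, emb_gamW_2]
  exact DFunLike.congr_fun key y

theorem Wqq_exists_hom (hq : q.Prime) (hqM : ¬ q ∣ M') :
    ∃ w : FN (M' * q * q) →ₐ[Kb] FN (M' * q * q),
      (∀ y : FN (M' * q), w (alp (M' * q) q y) = bet (M' * q) q (wq M' q y)) ∧
      (∀ y : FN (M' * q), w (bet (M' * q) q y) = alp (M' * q) q (wq M' q y)) := by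
  have hcop1 : Nat.Coprime q M' := (Nat.Prime.coprime_iff_not_dvd hq).mpr hqM
  have hcop : IsCoprime ((q * q : ℕ) : ℤ) (M' : ℤ) :=
    Nat.isCoprime_iff_coprime.mpr (Nat.Coprime.mul_left hcop1 hcop1)
  obtain ⟨a, b, hab⟩ := hcop
  have h : a * ((q * q : ℕ) : ℤ) - (-b) * (M' : ℤ) = 1 := by linarith
  obtain ⟨w, hw, -⟩ := exists_algHom_of_embeddings (genX (M' * q) q)
    (fun i => if i.2 then alp (M' * q) q (wq M' q (S18.frickeX (M' * q) i.1))
      else bet (M' * q) q (wq M' q (S18.frickeX (M' * q) i.1))) (genX_generates (M' * q) q hq)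
    (emb (M' * q) q (gamW M' q a (-b) h)) (PhiW M' q)
    (by
      intro c
      have h1 := Wqq_emb_alp M' q hq hqM a (-b) h (algebraMap Kb (FN (M' * q)) c)
      rwa [AlgHom.commutes, AlgEquiv.commutes, AlgHom.commutes] at h1)
    (by
      rintro ⟨p, _ | _⟩
      · exact Wqq_emb_alp M' q hq hqM a (-b) h _
      · exact Wqq_emb_bet M' q hq hqM a (-b) h _)
  refine ⟨w, fun y => ?_, fun y => ?_⟩
  · have key : w.comp (alp (M' * q) q)
        = (bet (M' * q) q).comp (wq M' q : FN (M' * q) →ₐ[Kb] FN (M' * q)) := by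
      apply algHom_ext_FN
      intro d _ hd
      obtain ⟨e, he⟩ := hd
      exact hw (⟨(d, e), he⟩, false)
    exact DFunLike.congr_fun key y
  · have key : w.comp (bet (M' * q) q)
        = (alp (M' * q) q).comp (wq M' q : FN (M' * q) →ₐ[Kb] FN (M' * q)) := by
      apply algHom_ext_FN
      intro d _ hd
      obtain ⟨e, he⟩ := hd
      exact hw (⟨(d, e), he⟩, true)
    exact DFunLike.congr_fun key y

theorem exists_wqq (hq : q.Prime) (hqM : ¬ q ∣ M') :
    ∃ w : FN (M' * q * q) ≃ₐ[Kb] FN (M' * q * q),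
      (∀ y : FN (M' * q), w (alp (M' * q) q y) = bet (M' * q) q (wq M' q y)) ∧
      (∀ y : FN (M' * q), w (bet (M' * q) q y) = alp (M' * q) q (wq M' q y)) := by
  obtain ⟨w, h1, h2⟩ := Wqq_exists_hom M' q hq hqM
  have hww : w.comp w = AlgHom.id Kb (FN (M' * q * q)) := by
    apply algHom_ext_alp_bet (M' * q) q hq
    · intro x
      rw [AlgHom.comp_apply, h1, h2, wq_wq hq hqM, AlgHom.id_apply]
    · intro x
      rw [AlgHom.comp_apply, h2, h1, wq_wq hq hqM, AlgHom.id_apply]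
  exact ⟨AlgEquiv.ofAlgHom w w hww hww, h1, h2⟩

/-- **The Atkin--Lehner involution `w_{q²}`** (identity in junk cases). -/
def wqq : FN (M' * q * q) ≃ₐ[Kb] FN (M' * q * q) :=
  if h : q.Prime ∧ ¬ q ∣ M' then Classical.choose (exists_wqq M' q h.1 h.2) else AlgEquiv.refl

variable {M' q}

theorem wqq_alp (hq : q.Prime) (hqM : ¬ q ∣ M') (y : FN (M' * q)) :
    wqq M' q (alp (M' * q) q y) = bet (M' * q) q (wq M' q y) := by
  rw [wqq, dif_pos ⟨hq, hqM⟩]
  exact (Classical.choose_spec (exists_wqq M' q hq hqM)).1 y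

theorem wqq_bet (hq : q.Prime) (hqM : ¬ q ∣ M') (y : FN (M' * q)) :
    wqq M' q (bet (M' * q) q y) = alp (M' * q) q (wq M' q y) := by
  rw [wqq, dif_pos ⟨hq, hqM⟩]
  exact (Classical.choose_spec (exists_wqq M' q hq hqM)).2 y

theorem wqq_wqq (hq : q.Prime) (hqM : ¬ q ∣ M') (z : FN (M' * q * q)) :
    wqq M' q (wqq M' q z) = z := by
  have key : ((wqq M' q : FN (M' * q * q) →ₐ[Kb] FN (M' * q * q))).comp
      (wqq M' q : FN (M' * q * q) →ₐ[Kb] FN (M' * q * q)) = AlgHom.id Kb (FN (M' * q * q)) := by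
    apply algHom_ext_alp_bet (M' * q) q hq
    · intro x
      show wqq M' q (wqq M' q (alp (M' * q) q x)) = alp (M' * q) q x
      rw [wqq_alp hq hqM, wqq_bet hq hqM, wq_wq hq hqM]
    · intro x
      show wqq M' q (wqq M' q (bet (M' * q) q x)) = bet (M' * q) q x
      rw [wqq_bet hq hqM, wqq_alp hq hqM, wq_wq hq hqM]
  exact DFunLike.congr_fun key z

theorem eq_wqq (hq : q.Prime) (hqM : ¬ q ∣ M') (w : FN (M' * q * q) →ₐ[Kb] FN (M' * q * q))
    (h1 : ∀ y : FN (M' * q), w (alp (M' * q) q y) = bet (M' * q) q (wq M' q y))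
    (h2 : ∀ y : FN (M' * q), w (bet (M' * q) q y) = alp (M' * q) q (wq M' q y))
    (z : FN (M' * q * q)) : w z = wqq M' q z := by
  have key : w = (wqq M' q : FN (M' * q * q) →ₐ[Kb] FN (M' * q * q)) := by
    apply algHom_ext_alp_bet (M' * q) q hq
    · intro x
      rw [h1]; exact (wqq_alp hq hqM x).symm
    · intro x
      rw [h2]; exact (wqq_bet hq hqM x).symm
  exact DFunLike.congr_fun key z

/-- on the three copies of `F'`. -/
theorem wqq_alp_alp (hq : q.Prime) (hqM : ¬ q ∣ M') (x : FN M') :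
    wqq M' q (alp (M' * q) q (alp M' q x)) = bet (M' * q) q (bet M' q x) := by
  rw [wqq_alp hq hqM, wq_alp hq hqM]

theorem wqq_alp_bet (hq : q.Prime) (hqM : ¬ q ∣ M') (x : FN M') :
    wqq M' q (alp (M' * q) q (bet M' q x)) = alp (M' * q) q (bet M' q x) := by
  rw [wqq_alp hq hqM, wq_bet hq hqM, Wqq_bet_alp]

theorem wqq_bet_bet (hq : q.Prime) (hqM : ¬ q ∣ M') (x : FN M') :
    wqq M' q (bet (M' * q) q (bet M' q x)) = alp (M' * q) q (alp M' q x) := by
  rw [wqq_bet hq hqM, wq_bet hq hqM]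

/-- `w_{q²}` commutes with the Galois action. -/
theorem wqq_galF (hq : q.Prime) (hqM : ¬ q ∣ M') (σ : GAL.GQ) (z : FN (M' * q * q)) :
    wqq M' q (galF (M' * q * q) σ z) = galF (M' * q * q) σ (wqq M' q z) := by
  have key : ((wqq M' q : FN (M' * q * q) →+* FN (M' * q * q))).comp
      (galF (M' * q * q) σ : FN (M' * q * q) →+* FN (M' * q * q))
      = ((galF (M' * q * q) σ : FN (M' * q * q) →+* FN (M' * q * q))).comp
        (wqq M' q : FN (M' * q * q) →+* FN (M' * q * q)) := by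
    apply ringHom_ext_alp_bet (M' * q) q hq
    · intro x
      show wqq M' q (galF (M' * q * q) σ (alp (M' * q) q x))
        = galF (M' * q * q) σ (wqq M' q (alp (M' * q) q x))
      rw [galF_alp, wqq_alp hq hqM, wqq_alp hq hqM, galF_bet, wq_galF hq hqM]
    · intro x
      show wqq M' q (galF (M' * q * q) σ (bet (M' * q) q x))
        = galF (M' * q * q) σ (wqq M' q (bet (M' * q) q x))
      rw [galF_bet, wqq_bet hq hqM, wqq_bet hq hqM, galF_alp, wq_galF hq hqM]
  exact DFunLike.congr_fun key z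

end Fermat.Agent.CAR.FQ2E
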