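import Fermat.Agent.CAR.FQ2E.Emb

/-!
# CAR / FQ2E / WqqC : the Atkin--Lehner involution `w_{q²}`, computation over `ℂ`

`wqq ∘ π₁ = π₂ ∘ w_q`, `wqq ∘ π₂ = π₁ ∘ w_q`, i.e. `x(Q) ↔ x(Q^{q²})`, `x(Q^q)` fixed (`x ∈ F'`).
-/

set_option autoImplicit false

open UpperHalfPlane ModularForm Function ModularCurve
open scoped Manifold MatrixGroups

noncomputable section

namespace Fermat.Agent.CAR.FQ2E

open Fermat.Agent.S24 Fermat.Agent.S28 Fermat.Agent.GR.HeckeField Fermat.Agent.TOR.GB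

variable (M' q : ℕ) [NeZero M'] [NeZero q]

/-- `z ↦ z(Q^{1/q²})` in the variable `Q^{1/(M' q²)}`. -/
def PhiW : FN (M' * q * q) →+* LaurentSeries ℂ :=
  (qExpand ℂ M').comp ((coeffMap iota).comp (algebraMap (FN (M' * q * q)) (LaurentSeries Kb)))

/-- the conjugating element `γ₀⁻¹`, `γ₀ = [[u,v],[M',q²]]`. -/
def gamW (u v : ℤ) (h : u * ((q * q : ℕ) : ℤ) - v * (M' : ℤ) = 1) : SL(2, ℤ) :=
  (gam0 M' (q * q) u v h)⁻¹

omit [NeZero q] in
theorem WqqC_PhiW_apply (z : FN (M' * q * q)) :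
    PhiW M' q z = qExpand ℂ M' (coeffMap iota (z : LaurentSeries Kb)) := rfl

theorem WqqC_gam0_congr {M N ℓ m : ℕ} (hM : M = N) (hℓ : ℓ = m) (u v : ℤ)
    (h : u * ℓ - v * M = 1) (h' : u * m - v * N = 1) : gam0 M ℓ u v h = gam0 N m u v h' := by
  subst hM hℓ
  rfl

theorem WqqC_rootU_zero (e : ℕ) : rootU e 0 = 1 := by
  apply Units.ext
  rw [coe_rootU]
  simp

/-- the expansion of `γ₀⁻¹ • j(ℓ₁ d τ)`. -/
theorem WqqC_emb_Jd (u v : ℤ) (h : u * ((q * q : ℕ) : ℤ) - v * (M' : ℤ) = 1)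
    (d e ℓ₁ ℓ₂ D k : ℕ) [NeZero d] [NeZero ℓ₁] [NeZero D] [NeZero k]
    (hM : M' = d * e) (hq : q * q = ℓ₁ * ℓ₂) (hD' : D = ℓ₁ * d) (hD : D ∣ M' * q * q)
    (hk : k * ℓ₁ = M' * q * q * d) :
    emb (M' * q) q (gamW M' q u v h) (Jd (M' * q * q) D hD) = qExpand ℂ k (jqModC ℂ) := by
  rw [emb_Jd_of_affH (M' * q) q (gamW M' q u v h) D hD d ℓ₁ 0 (Nat.pos_of_ne_zero (NeZero.ne d))
    (Nat.pos_of_ne_zero (NeZero.ne ℓ₁)) k hk ?_, WqqC_rootU_zero, twist_one']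
  intro τ
  have h' : u * ((ℓ₁ * ℓ₂ : ℕ) : ℤ) - v * ((d * e : ℕ) : ℤ) = 1 := by
    rw [← hq, ← hM]; exact h
  rw [gamW, inv_inv, WqqC_gam0_congr hM hq u v h h']
  subst hD'
  exact jD_gam0_smul' d e ℓ₁ ℓ₂ u v h' τ

/-- reduction to the generators. -/
theorem WqqC_ext (γ : SL(2, ℤ)) (a b : FN M' →ₐ[Kb] FN (M' * q * q))
    (h : ∀ (d : ℕ) [NeZero d] (hd : d ∣ M'),
      emb (M' * q) q γ (a (Jd M' d hd)) = PhiW M' q (b (Jd M' d hd))) (x : FN M') :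
    emb (M' * q) q γ (a x) = PhiW M' q (b x) := by
  let f : FN M' →+* LaurentSeries ℂ := (emb (M' * q) q γ).comp a.toRingHom
  let g : FN M' →+* LaurentSeries ℂ := (PhiW M' q).comp b.toRingHom
  have key : f = g := by
    apply ringHom_ext_FN
    · intro c
      show emb (M' * q) q γ (a (algebraMap Kb (FN M') c)) = PhiW M' q (b (algebraMap Kb (FN M') c))
      rw [AlgHom.commutes, AlgHom.commutes, emb_algebraMap, WqqC_PhiW_apply]
      have h1 : ((algebraMap Kb (FN (M' * q * q)) c : FN (M' * q * q)) : LaurentSeries Kb) =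
          HahnSeries.single 0 c := algebraMap_laurentSeries_eq_single Kb c
      rw [h1, coeffMap_single, qExpand_single, mul_zero]
    · intro d _ hd
      exact h d hd
  exact DFunLike.congr_fun key x

/-- `x(Q) ↦ x(Q) = (x(Q^{q²}))(Q^{1/q²})`. -/
theorem emb_gamW_0 (u v : ℤ) (h : u * ((q * q : ℕ) : ℤ) - v * (M' : ℤ) = 1) (x : FN M') :
    emb (M' * q) q (gamW M' q u v h) (alp (M' * q) q (alp M' q x))
      = PhiW M' q (bet (M' * q) q (bet M' q x)) := by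
  refine WqqC_ext M' q _ ((alp (M' * q) q).comp (alp M' q)) ((bet (M' * q) q).comp (bet M' q)) ?_ x
  intro d _ hd
  obtain ⟨e, he⟩ := hd
  rw [AlgHom.comp_apply, AlgHom.comp_apply, alp_Jd, alp_Jd,
    WqqC_emb_Jd M' q u v h d e 1 (q * q) d (M' * q * q * d) he (by ring) (by ring) _ (by ring),
    WqqC_PhiW_apply, coe_heckeBetaBar, coe_heckeBetaBar, coeffMap_qExpand, coeffMap_qExpand]
  show _ = qExpand ℂ M' (qExpand ℂ q (qExpand ℂ q (coeffMap iota (JdL d))))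
  rw [coeffMap_iota_JdL, qExpand_qExpand, qExpand_qExpand, qExpand_qExpand]

/-- `x(Q^q) ↦ x(Q^{1/q}) = (x(Q^q))(Q^{1/q²})`. -/
theorem emb_gamW_1 (u v : ℤ) (h : u * ((q * q : ℕ) : ℤ) - v * (M' : ℤ) = 1) (x : FN M') :
    emb (M' * q) q (gamW M' q u v h) (alp (M' * q) q (bet M' q x))
      = PhiW M' q (alp (M' * q) q (bet M' q x)) := by
  refine WqqC_ext M' q _ ((alp (M' * q) q).comp (bet M' q)) ((alp (M' * q) q).comp (bet M' q)) ?_ x
  intro d _ hd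
  obtain ⟨e, he⟩ := hd
  rw [AlgHom.comp_apply, bet_Jd, alp_Jd,
    WqqC_emb_Jd M' q u v h d e q q (q * d) (M' * q * d) he rfl rfl _ (by ring),
    WqqC_PhiW_apply]
  show _ = qExpand ℂ M' (coeffMap iota (JdL (q * d)))
  rw [coeffMap_iota_JdL, qExpand_qExpand]
  exact qExpand_congr (by ring) _

/-- `x(Q^{q²}) ↦ x(Q^{1/q²})`. -/
theorem emb_gamW_2 (u v : ℤ) (h : u * ((q * q : ℕ) : ℤ) - v * (M' : ℤ) = 1) (x : FN M') :
    emb (M' * q) q (gamW M' q u v h) (bet (M' * q) q (bet M' q x))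
      = PhiW M' q (alp (M' * q) q (alp M' q x)) := by
  refine WqqC_ext M' q _ ((bet (M' * q) q).comp (bet M' q)) ((alp (M' * q) q).comp (alp M' q)) ?_ x
  intro d _ hd
  obtain ⟨e, he⟩ := hd
  rw [AlgHom.comp_apply, AlgHom.comp_apply, bet_Jd, bet_Jd,
    WqqC_emb_Jd M' q u v h d e (q * q) 1 (q * (q * d)) (M' * d) he (by ring) (by ring) _ (by ring),
    WqqC_PhiW_apply, coe_heckeAlphaBar, coe_heckeAlphaBar]
  show _ = qExpand ℂ M' (coeffMap iota (JdL d))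
  rw [coeffMap_iota_JdL, qExpand_qExpand]

end Fermat.Agent.CAR.FQ2E
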